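import Fermat.Agent.S55.G.Rec.L2H931.Frob
import Fermat.Agent.S55.L.H355.Unram
import Fermat.Agent.S55.G.Rec.VdegH707

/-!
# S55 / layer G / block REC : leaf (L2) `LocalStructureSpec`, part 2 (helper931)

Arithmetic of the unit ball `B` of a finite extension `E / ℚ_q` inside `ℚ̄_q`:
units, maximal ideal, uniformizers, residue degree, and the fundamental identity `e f = n`
(from helper355's cardinality form).
-/

set_option autoImplicit false
set_option linter.style.haveILetI false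

noncomputable section

namespace Fermat.Agent.S55.G.Rec.H931

open Fermat.Agent.S55

section VS

variable {F : Type} [Field F] (B : ValuationSubring F) (N : F →*₀ ℝ) (hN : ∀ x, 0 ≤ N x)
  (hB : ∀ x : F, x ∈ B ↔ N x ≤ 1)

include hN hB in
theorem L2_isUnit_iff (x : B) : IsUnit x ↔ N (x : F) = 1 := by
  constructor
  · intro hx
    obtain ⟨y, hy⟩ := hx.exists_right_inv
    have h1 : N (x : F) * N (y : F) = 1 := by
      rw [← map_mul]
      have := congrArg (fun z : B => N (z : F)) hy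
      simpa using this
    have hx1 : N (x : F) ≤ 1 := (hB _).1 x.2
    have hy1 : N (y : F) ≤ 1 := (hB _).1 y.2
    by_contra hne
    have hlt : N (x : F) < 1 := lt_of_le_of_ne hx1 hne
    have : N (x : F) * N (y : F) < 1 := by
      calc N (x : F) * N (y : F) ≤ N (x : F) * 1 :=
            mul_le_mul_of_nonneg_left hy1 (hN _)
        _ < 1 := by rw [mul_one]; exact hlt
    rw [h1] at this
    exact lt_irrefl _ this
  · intro hx
    have hx0 : (x : F) ≠ 0 := by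
      intro h0
      rw [h0, map_zero] at hx
      exact zero_ne_one hx
    have hinv : (x : F)⁻¹ ∈ B := by
      rw [hB, map_inv₀, hx, inv_one]
    refine IsUnit.of_mul_eq_one ⟨(x : F)⁻¹, hinv⟩ ?_
    apply Subtype.ext
    show (x : F) * (x : F)⁻¹ = 1
    exact mul_inv_cancel₀ hx0

include hN hB in
theorem L2_mem_maximalIdeal_iff (x : B) : x ∈ IsLocalRing.maximalIdeal B ↔ N (x : F) < 1 := by
  rw [IsLocalRing.mem_maximalIdeal, mem_nonunits_iff, L2_isUnit_iff B N hN hB]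
  have hx1 : N (x : F) ≤ 1 := (hB _).1 x.2
  constructor
  · intro h; exact lt_of_le_of_ne hx1 h
  · intro h; exact h.ne

include hN hB in
theorem L2_norm_unitGroup (u : Fˣ) (hu : u ∈ B.unitGroup) : N (u : F) = 1 := by
  have h1 : B.valuation (u : F) = 1 := (B.mem_unitGroup_iff u).1 hu
  have h2 : (u : F) ∈ B := (B.valuation_le_one_iff _).1 h1.le
  have h3 : ((u⁻¹ : Fˣ) : F) ∈ B := by
    rw [← B.valuation_le_one_iff, Units.val_inv_eq_inv_val, map_inv₀, h1, inv_one]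
  have h4 : N (u : F) ≤ 1 := (hB _).1 h2
  have h5 : N ((u⁻¹ : Fˣ) : F) ≤ 1 := (hB _).1 h3
  rw [Units.val_inv_eq_inv_val, map_inv₀] at h5
  have hpos : 0 < N (u : F) := lt_of_le_of_ne (hN _) (Ne.symm ((map_ne_zero N).2 u.ne_zero))
  have h6 : 1 ≤ N (u : F) := by
    rwa [inv_le_one₀ hpos] at h5
  exact le_antisymm h4 h6

end VS

section PadicBase

variable (q : ℕ) [Fact q.Prime]

/-- The unit ball of `ℚ_q` as a valuation subring. -/
def L2_A : ValuationSubring ℚ_[q] := L.unitBall63 ℚ_[q]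

variable {q}

theorem L2_mem_A {x : ℚ_[q]} : x ∈ L2_A q ↔ ‖x‖ ≤ 1 := L.mem_unitBall63 ℚ_[q] x

theorem L2_A_isLocal : L.IsLocalRingOfIntegers (L2_A q) :=
  L.isLocalRingOfIntegers_unitBall63 ℚ_[q]

variable (q) in
/-- `ℤ_q` is the unit ball. -/
def L2_equivA : ℤ_[q] ≃+* ↥(L2_A q) where
  toFun x := ⟨(x : ℚ_[q]), L2_mem_A.2 x.2⟩
  invFun y := ⟨(y : ℚ_[q]), L2_mem_A.1 y.2⟩
  left_inv _ := rfl
  right_inv _ := rfl
  map_mul' _ _ := rfl
  map_add' _ _ := rfl

theorem L2_card_residue_A : Nat.card (IsLocalRing.ResidueField (L2_A q)) = q := by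
  have e1 : IsLocalRing.ResidueField ℤ_[q] ≃+* IsLocalRing.ResidueField (L2_A q) :=
    IsLocalRing.ResidueField.mapEquiv (L2_equivA q)
  rw [← Nat.card_congr e1.toEquiv, Nat.card_congr (PadicInt.residueField (p := q)).toEquiv,
    Nat.card_zmod]

theorem L2_q_mem_A : (q : ℚ_[q]) ∈ L2_A q := by
  rw [L2_mem_A, Padic.norm_p]
  exact inv_le_one_of_one_le₀ (by exact_mod_cast (Fact.out : q.Prime).one_lt.le)

theorem L2_isUniformizer_q : L.IsUniformizer (L2_A q) (q : ℚ_[q]) := by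
  refine ⟨L2_q_mem_A, ?_⟩
  have hq : q.Prime := Fact.out
  have hirr : Irreducible (q : ℤ_[q]) := PadicInt.irreducible_p
  have := (MulEquiv.irreducible_iff (L2_equivA q).toMulEquiv).2 hirr
  exact this

end PadicBase

section Ext

variable {q : ℕ} [Fact q.Prime]

/-- The norm of `ℚ̄_q` restricted to an intermediate field. -/
def L2_N (E : IntermediateField ℚ_[q] (PadicAlgCl q)) : ↥E →*₀ ℝ where
  toFun x := ‖(x : PadicAlgCl q)‖
  map_zero' := by simp
  map_one' := by simp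
  map_mul' x y := by simp

theorem L2_N_apply (E : IntermediateField ℚ_[q] (PadicAlgCl q)) (x : E) :
    L2_N E x = ‖(x : PadicAlgCl q)‖ := rfl

/-- The structure of a finite extension `E / ℚ_q` inside `ℚ̄_q`: residue degree `f`, ramification
index `e`, uniformizer `ϖ`, with `e f = [E : ℚ_q]`. -/
theorem L2_structure (E : IntermediateField ℚ_[q] (PadicAlgCl q)) [FiniteDimensional ℚ_[q] E] :
    ∃ (f e : ℕ) (ϖ : E), 0 < f ∧ e * f = Module.finrank ℚ_[q] E ∧ ϖ ≠ 0 ∧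
      ‖(ϖ : PadicAlgCl q)‖ < 1 ∧ ‖(ϖ : PadicAlgCl q)‖ ^ e = (q : ℝ)⁻¹ ∧
      (∀ x : E, ‖(x : PadicAlgCl q)‖ < 1 → ‖(x : PadicAlgCl q)‖ ≤ ‖(ϖ : PadicAlgCl q)‖) ∧
      (∀ x : E, x ≠ 0 → ∃ (k : ℤ) (u : E), ‖(u : PadicAlgCl q)‖ = 1 ∧ x = ϖ ^ k * u) ∧
      (∀ x : E, ‖(x : PadicAlgCl q)‖ ≤ 1 → ‖(x : PadicAlgCl q) ^ (q ^ f) - x‖ < 1) ∧
      (∀ m, 0 < m →
        (∀ x : E, ‖(x : PadicAlgCl q)‖ ≤ 1 → ‖(x : PadicAlgCl q) ^ (q ^ m) - x‖ < 1) → f ≤ m) := by
  classical
  have hq : q.Prime := Fact.out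
  obtain ⟨B, hBloc, hBmem⟩ := L.exists_ringOfIntegers_eq_unitBall63 q E
  have hN : ∀ x, 0 ≤ L2_N E x := fun x => norm_nonneg (x : PadicAlgCl q)
  have hBmem' : ∀ x : E, x ∈ B ↔ L2_N E x ≤ 1 := hBmem
  haveI : IsDiscreteValuationRing B := hBloc.1
  haveI : Finite (IsLocalRing.ResidueField B) := hBloc.2.2
  letI : Fintype (IsLocalRing.ResidueField B) := Fintype.ofFinite _
  obtain ⟨ϖ, hϖm, hϖirr⟩ := L.H355.exists_isUniformizer hBloc.1
  have hϖ : L.IsUniformizer B ϖ := ⟨hϖm, hϖirr⟩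
  have hϖ0 : ϖ ≠ 0 := L.H355.isUniformizer_ne_zero hϖ
  -- norm of the uniformizer
  have hϖlt : ‖(ϖ : PadicAlgCl q)‖ < 1 := by
    have h1 : (⟨ϖ, hϖm⟩ : B) ∈ IsLocalRing.maximalIdeal B := by
      rw [IsLocalRing.mem_maximalIdeal]; exact hϖirr.not_isUnit
    have h2 := (L2_mem_maximalIdeal_iff B (L2_N E) hN hBmem' ⟨ϖ, hϖm⟩).1 h1
    rw [L2_N_apply] at h2
    exact h2
  have hϖpos : 0 < ‖(ϖ : PadicAlgCl q)‖ := by
    rw [norm_pos_iff]
    intro h0
    exact hϖ0 (Subtype.ext h0)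
  -- the prime `q` in `B`
  have hqnorm : ‖((algebraMap ℚ_[q] E (q : ℚ_[q]) : E) : PadicAlgCl q)‖ = (q : ℝ)⁻¹ :=
    L.norm_natCast_prime63 q
  have hqinv_lt : (q : ℝ)⁻¹ < 1 := inv_lt_one_of_one_lt₀ (by exact_mod_cast hq.one_lt)
  have hqB : algebraMap ℚ_[q] E (q : ℚ_[q]) ∈ B := by
    rw [hBmem, hqnorm]; exact hqinv_lt.le
  have hq0 : (⟨algebraMap ℚ_[q] E (q : ℚ_[q]), hqB⟩ : B) ≠ 0 := by
    intro h0
    have h1 := congrArg (fun z : B => ‖((z : E) : PadicAlgCl q)‖) h0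
    simp only [hqnorm] at h1
    simp at h1
    exact hq.ne_zero h1
  obtain ⟨e, u, hu⟩ := IsDiscreteValuationRing.eq_unit_mul_pow_irreducible hq0 hϖirr
  have hu' : algebraMap ℚ_[q] E (q : ℚ_[q]) = ((u : B) : E) * ϖ ^ e := by
    have := congrArg Subtype.val hu
    simpa using this
  have hunorm : ‖(((u : B) : E) : PadicAlgCl q)‖ = 1 := by
    have h2 := (L2_isUnit_iff B (L2_N E) hN hBmem' (u : B)).1 u.isUnit
    rw [L2_N_apply] at h2
    exact h2
  have hnorme : ‖(ϖ : PadicAlgCl q)‖ ^ e = (q : ℝ)⁻¹ := by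
    rw [← hqnorm, hu']
    push_cast
    rw [norm_mul, norm_pow, hunorm, one_mul]
  have he : 0 < e := by
    rcases Nat.eq_zero_or_pos e with h0 | h0
    · rw [h0, pow_zero] at hnorme
      rw [← hnorme] at hqinv_lt
      exact absurd hqinv_lt (lt_irrefl _)
    · exact h0
  have hval : B.valuation (algebraMap ℚ_[q] E (q : ℚ_[q])) = B.valuation ϖ ^ e := by
    rw [hu', map_mul, map_pow, B.valuation_unit u, one_mul]
  -- the fundamental identity
  have hfund := L.H355.card_residue_pow_eq L2_A_isLocal hBloc L2_isUniformizer_q hϖ hval he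
  rw [L2_card_residue_A] at hfund
  have hcard1 : 1 < Nat.card (IsLocalRing.ResidueField B) := L.H355.one_lt_card_residue hBloc
  obtain ⟨f, -, hf⟩ : ∃ f, f ≤ Module.finrank ℚ_[q] E ∧
      Nat.card (IsLocalRing.ResidueField B) = q ^ f := by
    apply (Nat.dvd_prime_pow hq).1
    rw [← hfund]
    exact dvd_pow_self _ he.ne'
  have hfpos : 0 < f := by
    rcases Nat.eq_zero_or_pos f with h0 | h0
    · rw [h0, pow_zero] at hf
      rw [hf] at hcard1
      exact absurd hcard1 (lt_irrefl _)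
    · exact h0
  have hef : e * f = Module.finrank ℚ_[q] E := by
    rw [hf, ← pow_mul] at hfund
    have := Nat.pow_right_injective hq.two_le hfund
    rw [← this, mul_comm]
  -- residues
  have hres : ∀ (x : E) (hx : x ∈ B) (m : ℕ),
      (IsLocalRing.residue B ⟨x, hx⟩) ^ (q ^ m) = IsLocalRing.residue B ⟨x, hx⟩ ↔
        ‖(x : PadicAlgCl q) ^ (q ^ m) - x‖ < 1 := by
    intro x hx m
    have h2 := L2_mem_maximalIdeal_iff B (L2_N E) hN hBmem' ((⟨x, hx⟩ : B) ^ (q ^ m) - ⟨x, hx⟩)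
    rw [L2_N_apply] at h2
    rw [← map_pow, ← sub_eq_zero, ← map_sub, IsLocalRing.residue_eq_zero_iff, h2]
    rfl
  refine ⟨f, e, ϖ, hfpos, hef, hϖ0, hϖlt, hnorme, ?_, ?_, ?_, ?_⟩
  · -- maximality of the norm of the uniformizer
    intro x hx
    have hxB : x ∈ B := (hBmem x).2 hx.le
    have h1 : (⟨x, hxB⟩ : B) ∈ IsLocalRing.maximalIdeal B := by
      have h2 := L2_mem_maximalIdeal_iff B (L2_N E) hN hBmem' ⟨x, hxB⟩
      rw [L2_N_apply] at h2
      exact h2.2 hx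
    rw [hϖirr.maximalIdeal_eq, Ideal.mem_span_singleton'] at h1
    obtain ⟨y, hy⟩ := h1
    have h2 : (x : PadicAlgCl q) = ((y : E) : PadicAlgCl q) * (ϖ : PadicAlgCl q) := by
      have := congrArg (fun z : B => ((z : E) : PadicAlgCl q)) hy
      simpa using this.symm
    rw [h2, norm_mul]
    calc ‖((y : E) : PadicAlgCl q)‖ * ‖(ϖ : PadicAlgCl q)‖ ≤ 1 * ‖(ϖ : PadicAlgCl q)‖ :=
          mul_le_mul_of_nonneg_right ((hBmem _).1 y.2) (norm_nonneg _)
      _ = ‖(ϖ : PadicAlgCl q)‖ := one_mul _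
  · -- decomposition
    intro x hx
    obtain ⟨w, hw, hxw⟩ := L.H355.exists_unit_mul_zpow hBloc.1 hϖ (Units.mk0 x hx)
    refine ⟨L.H355.ordZ B ϖ (Units.mk0 x hx), (w : E), ?_, ?_⟩
    · have h2 := L2_norm_unitGroup B (L2_N E) hN hBmem' w hw
      rw [L2_N_apply] at h2
      exact h2
    · have := congrArg (fun z : (↥E)ˣ => (z : E)) hxw
      simpa using this
  · -- the residue degree property
    intro x hx
    have hxB : x ∈ B := (hBmem x).2 hx
    rw [← hres x hxB f, ← hf, Nat.card_eq_fintype_card]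
    exact FiniteField.pow_card _
  · -- minimality
    intro m hm hall
    have hall' : ∀ t : IsLocalRing.ResidueField B, t ^ (q ^ m) = t ^ 1 := by
      intro t
      obtain ⟨⟨x, hxB⟩, rfl⟩ := IsLocalRing.residue_surjective t
      rw [pow_one, hres x hxB m]
      exact hall x ((hBmem x).1 hxB)
    have h1 := L.H355.modEq_of_forall_pow_eq hall'
    rw [hf] at h1
    have h2 : q ^ m ≡ q ^ 0 [MOD q ^ f - 1] := by simpa using h1
    have h3 := L.H355.modEq_of_pow_modEq hq.two_le hfpos h2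
    have h4 : f ∣ m := (Nat.modEq_zero_iff_dvd).1 h3
    exact Nat.le_of_dvd hm h4

end Ext

end Fermat.Agent.S55.G.Rec.H931
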