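import Fermat.Agent.S55.G.Rec.Spec2
import Fermat.Agent.S55.L.Inst63
import Fermat.Agent.S55.BLocal.Range

/-!
# S55 / layer G / block REC : leaf (L2) `LocalStructureSpec`, part 1 (helper931)

Fixed fields of open subgroups of `G_{ℚ_q}`, the unit ball of `ℚ̄_q` with its Galois action, and the
existence of Frobenius lifts (via the profinite surjectivity of the stabiliser map).
-/

set_option autoImplicit false
set_option linter.style.haveILetI false

noncomputable section

namespace Fermat.Agent.S55.G.Rec.H931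

section Abstract


open scoped Pointwise

/-- Abstract existence of Frobenius lifts for a profinite group acting continuously on a
(discrete) ring `B`, relative to the subring of invariants. -/
theorem L2_exists_frob_abstract {B : Type*} [CommRing B] {G : Type*} [Group G]
    [MulSemiringAction G B] [TopologicalSpace G] [CompactSpace G] [TotallyDisconnectedSpace G]
    [IsTopologicalGroup G]
    (hcont : letI : TopologicalSpace B := ⊥; ContinuousSMul G B)
    (Q : Ideal B) [Q.IsPrime] (p : ℕ) (hp : p.Prime) (hpQ : (p : B) ∈ Q) (f : ℕ)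
    (hfix : ∀ a : B, (∀ g : G, g • a = a) → a ^ (p ^ f) - a ∈ Q)
    (hsurj : ∀ b : B, ∃ c : B, c ^ (p ^ f) - b ∈ Q) :
    ∃ σ : G, ∀ x : B, σ • x - x ^ (p ^ f) ∈ Q := by
  letI : TopologicalSpace B := ⊥
  haveI : DiscreteTopology B := ⟨rfl⟩
  haveI := hcont
  haveI : Fact p.Prime := ⟨hp⟩
  let A := FixedPoints.subring B G
  haveI : Algebra.IsInvariant A B G := ⟨fun b hb => ⟨⟨b, hb⟩, rfl⟩⟩
  let P : Ideal A := Q.under A
  haveI : Q.LiesOver P := ⟨rfl⟩
  haveI : IsDomain (B ⧸ Q) := Ideal.Quotient.isDomain Q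
  have hzero : ((p : ℕ) : B ⧸ Q) = 0 := by
    have : (Ideal.Quotient.mk Q) (p : B) = 0 := Ideal.Quotient.eq_zero_iff_mem.mpr hpQ
    simpa using this
  haveI hchar : CharP (B ⧸ Q) p := (CharP.charP_iff_prime_eq_zero hp).mpr hzero
  let F : (B ⧸ Q) →ₐ[A ⧸ P] (B ⧸ Q) :=
    { toRingHom := iterateFrobenius (B ⧸ Q) p f
      commutes' := by
        intro y
        obtain ⟨a, rfl⟩ := Ideal.Quotient.mk_surjective y
        show iterateFrobenius _ p f (algebraMap (A ⧸ P) _ (Ideal.Quotient.mk P a)) =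
          algebraMap (A ⧸ P) _ (Ideal.Quotient.mk P a)
        have h1 : algebraMap (A ⧸ P) (B ⧸ Q) (Ideal.Quotient.mk P a)
            = Ideal.Quotient.mk Q (a : B) := rfl
        rw [h1, iterateFrobenius_def, ← map_pow, ← sub_eq_zero, ← map_sub,
          Ideal.Quotient.eq_zero_iff_mem]
        exact hfix a a.2 }
  have hinj : Function.Injective F := iterateFrobenius_inj (B ⧸ Q) p f
  have hsurj' : Function.Surjective F := by
    intro y
    obtain ⟨b, rfl⟩ := Ideal.Quotient.mk_surjective y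
    obtain ⟨c, hc⟩ := hsurj b
    refine ⟨Ideal.Quotient.mk Q c, ?_⟩
    show iterateFrobenius _ p f (Ideal.Quotient.mk Q c) = _
    rw [iterateFrobenius_def, ← map_pow, ← sub_eq_zero, ← map_sub, Ideal.Quotient.eq_zero_iff_mem]
    exact hc
  let e : (B ⧸ Q) ≃ₐ[A ⧸ P] (B ⧸ Q) := AlgEquiv.ofBijective F ⟨hinj, hsurj'⟩
  obtain ⟨σ, hσ⟩ := Ideal.Quotient.stabilizerHom_surjective_of_profinite (G := G) P Q e
  refine ⟨σ.1, fun x => ?_⟩
  have h2 := congrArg (fun t => t (Ideal.Quotient.mk Q x)) hσ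
  simp only [Ideal.Quotient.stabilizerHom_apply] at h2
  have h3 : e (Ideal.Quotient.mk Q x) = Ideal.Quotient.mk Q (x ^ (p ^ f)) := by
    show iterateFrobenius _ p f (Ideal.Quotient.mk Q x) = _
    rw [iterateFrobenius_def, map_pow]
  rw [h3] at h2
  rw [← Ideal.Quotient.eq]
  exact h2


end Abstract

section Fields


open Fermat.Agent.S55

variable (q : ℕ) [Fact q.Prime]

local notation "Gq" => (PadicAlgCl q ≃ₐ[ℚ_[q]] PadicAlgCl q)

/-- The fixed field of `V`. -/
abbrev L2_E (V : Subgroup Gq) : IntermediateField ℚ_[q] (PadicAlgCl q) :=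
  IntermediateField.fixedField V

variable {q}

theorem L2_isOpen {V : Subgroup Gq} (hV : IsOpenL q V) : IsOpen (V : Set Gq) := by
  obtain ⟨E, hE, hEV⟩ := hV
  exact Subgroup.isOpen_mono hEV E.fixingSubgroup_isOpen

theorem L2_fixingSubgroup {V : Subgroup Gq} (hV : IsOpenL q V) :
    (L2_E q V).fixingSubgroup = V := by
  haveI := BLocal.isGalois_padicAlgCl q
  have hcl : IsClosed (V : Set Gq) := Subgroup.isClosed_of_isOpen V (L2_isOpen hV)
  exact InfiniteGalois.fixingSubgroup_fixedField ⟨V, hcl⟩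

theorem L2_finiteDimensional {V : Subgroup Gq} (hV : IsOpenL q V) :
    FiniteDimensional ℚ_[q] (L2_E q V) := by
  haveI := BLocal.isGalois_padicAlgCl q
  obtain ⟨E, hE, hEV⟩ := hV
  have hle : L2_E q V ≤ E := by
    have h1 : IntermediateField.fixedField V ≤ IntermediateField.fixedField E.fixingSubgroup := by
      intro x hx
      rw [IntermediateField.mem_fixedField_iff] at hx ⊢
      exact fun f hf => hx f (hEV hf)
    rwa [InfiniteGalois.fixedField_fixingSubgroup] at h1
  exact Module.Finite.of_injective (IntermediateField.inclusion hle).toLinearMap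
    (IntermediateField.inclusion hle).injective

theorem L2_mem_E_iff {V : Subgroup Gq} (x : PadicAlgCl q) :
    x ∈ L2_E q V ↔ IsFixedBy q V x := by
  rw [IntermediateField.mem_fixedField_iff]
  rfl

theorem L2_index {V : Subgroup Gq} (hV : IsOpenL q V) :
    V.index = Module.finrank ℚ_[q] (L2_E q V) := by
  haveI := BLocal.isGalois_padicAlgCl q
  rw [IntermediateField.finrank_eq_fixingSubgroup_index, L2_fixingSubgroup hV]


end Fields

section Ball


open Fermat.Agent.S55

variable (q : ℕ) [Fact q.Prime]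

local notation "Gq" => (PadicAlgCl q ≃ₐ[ℚ_[q]] PadicAlgCl q)

/-- The closed unit ball of `ℚ̄_q` as a subring. -/
def L2_O : Subring (PadicAlgCl q) where
  carrier := {x | ‖x‖ ≤ 1}
  mul_mem' := by
    intro a b ha hb
    simp only [Set.mem_ofPred_eq] at ha hb ⊢
    rw [norm_mul]
    exact mul_le_one₀ ha (norm_nonneg _) hb
  one_mem' := by simp
  add_mem' := by
    intro a b ha hb
    simp only [Set.mem_ofPred_eq] at ha hb ⊢
    exact (IsUltrametricDist.norm_add_le_max a b).trans (max_le ha hb)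
  zero_mem' := by simp
  neg_mem' := by
    intro a ha
    simp only [Set.mem_ofPred_eq] at ha ⊢
    rwa [norm_neg]

variable {q}

theorem L2_mem_O {x : PadicAlgCl q} : x ∈ L2_O q ↔ ‖x‖ ≤ 1 := Iff.rfl

theorem L2_norm_map (σ : Gq) (x : PadicAlgCl q) : ‖σ x‖ = ‖x‖ := by
  have := nnnorm_padicAlgCl_algEquiv q σ x
  exact congrArg NNReal.toReal this

variable (q)

/-- The open unit ball, as an ideal of the closed unit ball. -/
def L2_m : Ideal (L2_O q) where
  carrier := {x | ‖(x : PadicAlgCl q)‖ < 1}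
  add_mem' := by
    intro a b ha hb
    simp only [Set.mem_ofPred_eq] at ha hb ⊢
    exact (IsUltrametricDist.norm_add_le_max (a : PadicAlgCl q) b).trans_lt (max_lt ha hb)
  zero_mem' := by simp
  smul_mem' := by
    intro c x hx
    simp only [Set.mem_ofPred_eq, smul_eq_mul, Subring.coe_mul, norm_mul] at hx ⊢
    calc ‖(c : PadicAlgCl q)‖ * ‖(x : PadicAlgCl q)‖ ≤ 1 * ‖(x : PadicAlgCl q)‖ :=
          mul_le_mul_of_nonneg_right c.2 (norm_nonneg _)
      _ < 1 := by rw [one_mul]; exact hx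

variable {q}

theorem L2_mem_m {x : L2_O q} : x ∈ L2_m q ↔ ‖(x : PadicAlgCl q)‖ < 1 := Iff.rfl

instance L2_m_isPrime : (L2_m q).IsPrime := by
  constructor
  · intro h
    have : (1 : L2_O q) ∈ L2_m q := by rw [h]; trivial
    rw [L2_mem_m] at this
    simp at this
  · intro a b hab
    rw [L2_mem_m] at hab ⊢
    rw [L2_mem_m]
    by_contra hcon
    rw [not_or, not_lt, not_lt] at hcon
    have ha : ‖(a : PadicAlgCl q)‖ = 1 := le_antisymm a.2 hcon.1
    have hb : ‖(b : PadicAlgCl q)‖ = 1 := le_antisymm b.2 hcon.2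
    rw [Subring.coe_mul, norm_mul, ha, hb, mul_one] at hab
    exact lt_irrefl _ hab

/-- The action of a subgroup of the local Galois group on the unit ball. -/
instance L2_action (V : Subgroup Gq) : MulSemiringAction ↥V (L2_O q) where
  smul σ x := ⟨(σ : Gq) (x : PadicAlgCl q), by
    rw [L2_mem_O, L2_norm_map]; exact x.2⟩
  one_smul x := Subtype.ext rfl
  mul_smul σ τ x := Subtype.ext rfl
  smul_zero σ := Subtype.ext (map_zero (σ : Gq))
  smul_add σ x y := Subtype.ext (map_add (σ : Gq) _ _)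
  smul_one σ := Subtype.ext (map_one (σ : Gq))
  smul_mul σ x y := Subtype.ext (map_mul (σ : Gq) _ _)

theorem L2_coe_smul (V : Subgroup Gq) (σ : ↥V) (x : L2_O q) :
    ((σ • x : L2_O q) : PadicAlgCl q) = (σ : Gq) (x : PadicAlgCl q) := rfl

theorem L2_continuousSMul (V : Subgroup Gq) :
    letI : TopologicalSpace (L2_O q) := ⊥
    ContinuousSMul ↥V (L2_O q) := by
  letI : TopologicalSpace (L2_O q) := ⊥
  haveI : DiscreteTopology (L2_O q) := ⟨rfl⟩
  refine ⟨?_⟩
  rw [continuous_prod_of_discrete_right]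
  intro b
  rw [continuous_discrete_rng]
  intro c
  rw [isOpen_iff_mem_nhds]
  intro g hg
  let E : IntermediateField ℚ_[q] (PadicAlgCl q) :=
    IntermediateField.adjoin ℚ_[q] {(b : PadicAlgCl q)}
  haveI : FiniteDimensional ℚ_[q] E :=
    IntermediateField.adjoin.finiteDimensional (Algebra.IsIntegral.isIntegral _)
  -- the open set `{h ∈ V | g⁻¹ h fixes E}`
  have hopen : IsOpen {h : ↥V | ((g⁻¹ * h : ↥V) : Gq) ∈ E.fixingSubgroup} := by
    have h1 : Continuous (fun h : ↥V => ((g⁻¹ * h : ↥V) : Gq)) :=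
      continuous_subtype_val.comp (continuous_const.mul continuous_id)
    exact E.fixingSubgroup_isOpen.preimage h1
  refine Filter.mem_of_superset (hopen.mem_nhds ?_) ?_
  · simp only [Set.mem_ofPred_eq, inv_mul_cancel]
    exact one_mem _
  · intro h hh
    simp only [Set.mem_ofPred_eq] at hh
    simp only [Set.mem_preimage, Set.mem_singleton_iff] at hg ⊢
    rw [← hg]
    apply Subtype.ext
    have hb : ((g⁻¹ * h : ↥V) : Gq) (b : PadicAlgCl q) = b :=
      (IntermediateField.mem_fixingSubgroup_iff E _).mp hh b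
        (IntermediateField.subset_adjoin ℚ_[q] _ (Set.mem_singleton _))
    show (h : Gq) (b : PadicAlgCl q) = (g : Gq) (b : PadicAlgCl q)
    have : (h : Gq) = (g : Gq) * ((g⁻¹ * h : ↥V) : Gq) := by
      simp
    rw [this, AlgEquiv.mul_apply, hb]


end Ball

end Fermat.Agent.S55.G.Rec.H931

namespace Fermat.Agent.S55.G.Rec.H931

open Fermat.Agent.S55

variable {q : ℕ} [Fact q.Prime]

local notation "Gq" => (PadicAlgCl q ≃ₐ[ℚ_[q]] PadicAlgCl q)

theorem L2_norm_q : ‖(q : PadicAlgCl q)‖ = (q : ℝ)⁻¹ := by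
  have := L.norm_natCast_prime63 q
  simpa using this

theorem L2_exists_frob {V : Subgroup Gq} (hV : IsOpenL q V) (f : ℕ)
    (hf : ∀ x, IsFixedBy q V x → ‖x‖ ≤ 1 → ‖x ^ (q ^ f) - x‖ < 1) :
    ∃ φ : Gq, φ ∈ V ∧ ∀ x : PadicAlgCl q, ‖x‖ ≤ 1 → ‖φ x - x ^ (q ^ f)‖ < 1 := by
  have hq : q.Prime := Fact.out
  have hcl : IsClosed (V : Set Gq) := Subgroup.isClosed_of_isOpen V (L2_isOpen hV)
  haveI : CompactSpace ↥V := isCompact_iff_compactSpace.mp hcl.isCompact
  have hqm : ((q : ℕ) : L2_O q) ∈ L2_m q := by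
    rw [L2_mem_m]
    push_cast
    rw [L2_norm_q]
    exact inv_lt_one_of_one_lt₀ (by exact_mod_cast hq.one_lt)
  obtain ⟨σ, hσ⟩ := L2_exists_frob_abstract (B := L2_O q) (G := ↥V) (L2_continuousSMul V)
    (L2_m q) q hq hqm f
    (fun a ha => by
      rw [L2_mem_m]
      push_cast
      refine hf a ?_ a.2
      intro τ hτ
      exact congrArg Subtype.val (ha ⟨τ, hτ⟩))
    (fun b => by
      obtain ⟨c, hc⟩ := IsAlgClosed.exists_pow_nat_eq (b : PadicAlgCl q)
        (pow_pos hq.pos f)
      have hc1 : ‖c‖ ≤ 1 := by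
        have h1 : ‖c‖ ^ (q ^ f) ≤ 1 := by
          rw [← norm_pow, hc]; exact b.2
        by_contra hcon
        rw [not_le] at hcon
        exact absurd h1 (not_le.mpr (one_lt_pow₀ hcon (pow_pos hq.pos f).ne'))
      refine ⟨⟨c, hc1⟩, ?_⟩
      rw [L2_mem_m]
      push_cast
      rw [hc, sub_self, norm_zero]
      exact one_pos)
  refine ⟨σ, σ.2, fun x hx => ?_⟩
  have := hσ ⟨x, hx⟩
  rw [L2_mem_m] at this
  simpa [L2_coe_smul] using this

end Fermat.Agent.S55.G.Rec.H931
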